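import Fermat.Prelude.Sol.S_ModularForm_heckeT_slash_eq_self_of_mem_Gamma0

/-!
# Distinct Hecke matrices lie in distinct cosets of `SL(2, ℤ)`
-/

set_option autoImplicit false

open UpperHalfPlane Matrix.SpecialLinearGroup
open scoped MatrixGroups

namespace Fermat.Agent.Periods

theorem heckeMatrix_eq_mul {q : ℕ} (hq : q ≠ 0) {i j : ℕ} {g : SL(2, ℤ)}
    (h : ModularForm.heckeMatrix q i = mapGL ℝ g * ModularForm.heckeMatrix q j) :
    (i : ZMod q) = (j : ZMod q) := by
  have e00 := congrArg (fun x : GL (Fin 2) ℝ => x 0 0) h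
  have e01 := congrArg (fun x : GL (Fin 2) ℝ => x 0 1) h
  simp [hq, Matrix.mul_apply, Fin.sum_univ_two] at e00 e01
  rw [← e00, one_mul] at e01
  have e : ((i : ℤ) : ℝ) = ((j + g 0 1 * q : ℤ) : ℝ) := by push_cast; exact_mod_cast e01
  have := congrArg (Int.cast : ℤ → ZMod q) (Int.cast_injective e)
  simpa using this

theorem heckeMatrix_ne_diag {q : ℕ} (hq : 1 < q) (i : ℕ) (g : SL(2, ℤ)) :
    ModularForm.heckeMatrix q i ≠ mapGL ℝ g * ModularForm.heckeDiagMatrix q ∧
    ModularForm.heckeDiagMatrix q ≠ mapGL ℝ g * ModularForm.heckeMatrix q i := by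
  have hq0 : q ≠ 0 := by omega
  constructor
  · intro h
    have e := congrArg (fun x : GL (Fin 2) ℝ => x 0 0) h
    simp [hq0, Matrix.mul_apply, Fin.sum_univ_two] at e
    have e' : ((1 : ℤ) : ℝ) = ((g 0 0 * q : ℤ) : ℝ) := by push_cast; exact e
    have : (q : ℤ) ∣ 1 := ⟨g 0 0, by linear_combination (Int.cast_injective e')⟩
    have := Int.le_of_dvd one_pos this
    omega
  · intro h
    have e := congrArg (fun x : GL (Fin 2) ℝ => x 1 1) h
    have e' := congrArg (fun x : GL (Fin 2) ℝ => x 1 0) h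
    simp [hq0, Matrix.mul_apply, Fin.sum_univ_two] at e e'
    rw [← e', zero_mul, zero_add] at e
    have e'' : ((1 : ℤ) : ℝ) = ((g 1 1 * q : ℤ) : ℝ) := by push_cast; exact e
    have : (q : ℤ) ∣ 1 := ⟨g 1 1, by linear_combination (Int.cast_injective e'')⟩
    have := Int.le_of_dvd one_pos this
    omega

end Fermat.Agent.Periods
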